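/-
GATE-E / E8.5 (ii) PNEW-PATCH, node (P2), file 6 (helper15): **the kernel of the `p`-direction
morphisms of levels, in the binder shape of helper32's `NewAnn`**.

`Main.exists_levelHom_primeData` gives `φα φβ : LevelHom (twistπ F u hu) G _` with
`R'.ι (φα.f x) = coresq (castΘ (R.ι x))`, `R'.ι (φβ.f x) = coresDq (castΘ (R.ι x))`.  For the kernel
`K = ker (φα.f, φβ.f)` (helper80's `NewLevel.kerLevel`, `K = ker (LevelHom.prod φα φβ).f`):

* `castΘ_eq_castθ` : `Main.castΘ` is helper32's `NewAnn.castθ`;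
* `coresq_cast_dia_TH`, `coresDq_cast_dia_TH` : the transfers intertwine the twisted Hecke generators
  `⟨d⟩ ∘ T_ℓ` at the two levels;
* `new_of_ker` : `x ∈ K` ⟹ the binder `hKnew` of `NewAnn.hAnn_ker_new` (VERBATIM);
* `twist_mem_ker` : `K` is stable under every `τ` with `R.ι (τ m) = ⟨d⟩ (T_ℓ (R.ι m))`;
* `stable_of_gen` : stability under the generators of a ring gives stability under the ring;
* `exists_kerData` : at `F := Plug.bigLevel`, `R := Plug.bigReal`, in the variable context of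
  `NewAnn` (`twP`, `hιP`, `htw`, …): the data of `Main.exists_levelHom_primeData` together with
  `hK` (stability of `K` under `twP t`, ALL `t`) and `hKnew`.
-/
import Fermat.Agent.GE8.P3B.GE8.RaiseP.NewAnn
import Fermat.Agent.GE8.P3B.GE8.RaiseP.P2.Main
import Fermat.Agent.GE8.P3B.StepGen
import Fermat.Agent.GE8.P3B.Ok3W

/- TWIN (helper6 B4 generator; conventions of helper24 / helper86) of `Fermat.Agent.GE8.RaiseP.P2.MainPlug` with `p ≠ 3` relaxed to `Ok3A Sy 𝔪 p` / `Ok3W p W` (RISK-5 fix (B), step B4); everything below lives in the wrapper namespace `Fermat.Agent.GE8.P3B`. -/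
set_option linter.dupNamespace false
open Fermat Fermat.Agent Fermat.Agent.GB Fermat.Agent.GB.B10 Fermat.Agent.GB.B10.L Fermat.Agent.GB.B10.L.ThetaNew Fermat.Agent.GB.B3 Fermat.Agent.GB.B3.EisGamma0 Fermat.Agent.GB.B3.GamH Fermat.Agent.GB.B3.HeckeActH Fermat.Agent.GB.B3.RealLevel Fermat.Agent.GB.B3.TWChars Fermat.Agent.GB.B3.TWLevel Fermat.Agent.GB.B4 Fermat.Agent.GB.B4.Datum Fermat.Agent.GB.B4.Datum.ImageRing Fermat.Agent.GB.B4.Twist Fermat.Agent.GB.B4.Twist.Asm Fermat.Agent.GB.B4.Twist.Coeff Fermat.Agent.GB.B7 Fermat.Agent.GB.B7.UqEquiv Fermat.Agent.GB.B7.UqSq Fermat.Agent.GE8 Fermat.Agent.GE8.RaiseP Fermat.Agent.GE8.RaiseP.NewLevel Fermat.Agent.GE8.RaiseP.P2 Fermat.Agent.GE8.RaiseP.P2.Repin Fermat.Agent.GJ Fermat.Agent.GJ.J2 Fermat.Agent.GJ.J2.Lat Fermat.Agent.GJ.J2.LatAct Fermat.Agent.GJ.J2.ZStruct Fermat.Agent.GM Fermat.Agent.GM.Amalgam Fermat.Agent.GM.B Fermat.Agent.S16_helper49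

namespace Fermat.Agent.GE8.P3B

set_option autoImplicit false
set_option linter.unusedSectionVars false
set_option linter.style.haveILetI false

noncomputable section

open scoped MatrixGroups TensorProduct
open CongruenceSubgroup Matrix Matrix.SpecialLinearGroup ModularCurve.Period CuspForm
open S16_helper49 GM.B GM.Amalgam
open GB.B3 GB.B3.EisGamma0 GB.B3.GamH
open GJ.J2.ZStruct GJ.J2.Lat GJ.J2.LatAct
open GB.B4.Twist GB.B4.Twist.Asm GB.B4.Twist.Coeff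
open GB.B3.TWLevel GB.B3.RealLevel
  GB.B3.HeckeActH GB.B3.TWChars GB.B3.FinalTW
  GB.B3.Tower GB.B3.StepInst GB.B3.LocTransport
  GB.B3.Final
open GB.B7.UqSq GB.B7.UqEquiv
open GB.B4.Datum.ImageRing GB.B10.L.ThetaNew
open GE8.RaiseP.NewLevel GE8.RaiseP.NewAnn
open GE8.RaiseP.P2.Pair GE8.RaiseP.P2.Repin
  GE8.RaiseP.P2.Main

namespace GE8.RaiseP.P2.MainPlug

/-! ### the two transports coincide -/

theorem castΘ_eq_castθ {N : ℕ} {Δ : Type} [CommGroup Δ] {θ θ₂ : (ZMod N)ˣ →* Δ} (h : θ = θ₂)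
    (O : Type*) [AddCommGroup O] (v : Additive (GammaH θ) →+ O) :
    castΘ h O v = castθ h O v := by
  subst h
  rfl

/-! ### the transfers and the twisted Hecke generators -/

section Twist

variable {N q : ℕ} [Fact q.Prime] {Δ : Type} [CommGroup Δ] (θ' : (ZMod N)ˣ →* Δ) (hqN : ¬ q ∣ N)
  {O : Type*} [AddCommGroup O] {ℓ : ℕ} [Fact ℓ.Prime]

/-- **`α_*` intertwines `⟨d⟩ ∘ T_ℓ`** at the two levels, character up to equality -/
theorem coresq_cast_dia_TH (θ : (ZMod (N * q))ˣ →* Δ) (hθ : θ = thQ θ' q) (d : Gamma0 (N * q))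
    (hℓ : ¬ ℓ ∣ N * q) (hℓ' : ¬ ℓ ∣ N) (v : Additive (GammaH θ) →+ O) :
    coresq θ' hqN O (castΘ hθ O (diaH θ O d (TH θ O hℓ v)))
      = diaH θ' O (degenOne N q d) (TH θ' O hℓ' (coresq θ' hqN O (castΘ hθ O v))) := by
  subst hθ
  rw [castΘ_rfl, castΘ_rfl, coresq_diaH_degenOne, coresq_TH]

/-- **`β_*` intertwines `⟨d⟩ ∘ T_ℓ`** at the two levels, character up to equality -/
theorem coresDq_cast_dia_TH (θ : (ZMod (N * q))ˣ →* Δ) (hθ : θ = thQ θ' q) (d : Gamma0 (N * q))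
    (hℓ : ¬ ℓ ∣ N * q) (hℓ' : ¬ ℓ ∣ N) (v : Additive (GammaH θ) →+ O) :
    coresDq θ' hqN O (castΘ hθ O (diaH θ O d (TH θ O hℓ v)))
      = diaH θ' O (degenOne N q d) (TH θ' O hℓ' (coresDq θ' hqN O (castΘ hθ O v))) := by
  subst hθ
  rw [castΘ_rfl, castΘ_rfl, coresDq_diaH_degenOne, GB.B7.UqEquivAll.coresDq_TH]

end Twist

/-! ### the kernel, abstractly -/

section Ker

variable {N q : ℕ} [Fact q.Prime] {Δ : Type} [CommGroup Δ] (θ' : (ZMod N)ˣ →* Δ) (hqN : ¬ q ∣ N)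
  {O : Type} [CommRing O] (θ : (ZMod (N * q))ˣ →* Δ) (hθ : θ = thQ θ' q)
  {M M' : Type} [AddCommGroup M] [Module O M] [AddCommGroup M'] [Module O M']
  (ι : M →ₗ[O] (Additive (GammaH θ) →+ O)) (ι' : M' →ₗ[O] (Additive (GammaH θ') →+ O))
  (hι' : Function.Injective ι') (fα fβ : M →ₗ[O] M')
  (hα : ∀ x, ι' (fα x) = coresq θ' hqN O (castΘ hθ O (ι x)))
  (hβ : ∀ x, ι' (fβ x) = coresDq θ' hqN O (castΘ hθ O (ι x)))

include hα hβ in
/-- **kernel membership gives the binder `hKnew` of `NewAnn.hAnn_ker_new`** -/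
theorem new_of_ker (x : M) (hx : x ∈ LinearMap.ker (fα.prod fβ)) :
    coresq θ' hqN O (castθ hθ O (ι x)) = 0 ∧ coresDq θ' hqN O (castθ hθ O (ι x)) = 0 := by
  have hx' : fα x = 0 ∧ fβ x = 0 := Prod.mk_eq_zero.1 (LinearMap.mem_ker.1 hx)
  rw [← castΘ_eq_castθ, ← hα, ← hβ, hx'.1, hx'.2, map_zero]
  exact ⟨rfl, rfl⟩

include hι' hα hβ in
/-- **the kernel is stable under the twisted Hecke generators** -/
theorem twist_mem_ker {ℓ : ℕ} [Fact ℓ.Prime] (d : Gamma0 (N * q)) (hℓ : ¬ ℓ ∣ N * q)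
    (τ : M → M) (hτ : ∀ m, ι (τ m) = diaH θ O d (TH θ O hℓ (ι m)))
    (x : M) (hx : x ∈ LinearMap.ker (fα.prod fβ)) : τ x ∈ LinearMap.ker (fα.prod fβ) := by
  have hℓ' : ¬ ℓ ∣ N := fun h => hℓ (Dvd.dvd.mul_right h q)
  have hx' : fα x = 0 ∧ fβ x = 0 := Prod.mk_eq_zero.1 (LinearMap.mem_ker.1 hx)
  refine LinearMap.mem_ker.2 (Prod.mk_eq_zero.2 ⟨?_, ?_⟩)
  · apply hι'
    rw [hα, hτ, coresq_cast_dia_TH θ' hqN θ hθ d hℓ hℓ', ← hα, hx'.1]
    simp
  · apply hι'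
    rw [hβ, hτ, coresDq_cast_dia_TH θ' hqN θ hθ d hℓ hℓ', ← hβ, hx'.2]
    simp

end Ker

/-- stability of a submodule under the generators of a ring acting through a ring hom gives
stability under the whole ring -/
theorem stable_of_gen {O : Type*} [CommRing O] {M : Type*} [AddCommGroup M] [Module O M]
    {A : Type*} [Ring A] {gen : Set A} (hgen : Subring.closure gen = ⊤)
    (twP : A →+* Module.End O M) (K : Submodule O M)
    (h : ∀ g ∈ gen, ∀ x ∈ K, twP g x ∈ K) (t : A) : ∀ x ∈ K, twP t x ∈ K := by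
  have ht : t ∈ Subring.closure gen := by rw [hgen]; exact Subring.mem_top t
  induction ht using Subring.closure_induction with
  | mem g hg => exact h g hg
  | zero => intro x _; rw [map_zero]; exact K.zero_mem
  | one => intro x hx; rw [map_one]; exact hx
  | add a b _ _ ha hb =>
    intro x hx
    rw [map_add]
    exact K.add_mem (ha x hx) (hb x hx)
  | neg a _ ha =>
    intro x hx
    rw [map_neg]
    exact K.neg_mem (ha x hx)
  | mul a b _ _ ha hb =>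
    intro x hx
    rw [map_mul]
    exact ha _ (hb x hx)

/-! ### the kernel data at the big level of `GB/B3/Plug`, in the variable context of `NewAnn` -/

section Plug

/-- local instance (Prop-valued class) -/
local instance factPrimeOffMP {S : Set ℕ} (l : PrimesOff S) : Fact (l.1 : ℕ).Prime := ⟨l.1.2⟩

variable {Nl p : ℕ} [NeZero Nl] [hpF : Fact p.Prime] [NeZero (Nl * p)] {Kk : ℕ}
  {r e N' N'₀ : ℕ → ℕ}
variable (Sy : Symbols (Nl * p)) (hpNl : ¬ p ∣ Nl) (hrN : ∀ j, Sy.r j ∣ Nl)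
variable {O : Type} [CommRing O] [IsDomain O] [IsPrincipalIdealRing O] [IsLocalRing O]
  [IsAdicComplete (IsLocalRing.maximalIdeal O) O] [Module.IsTorsionFree ℤ O]
variable (𝔪 : Ideal (Sy.𝕋 O)) [𝔪.IsMaximal]
variable (H : PrimeData (Nl * p) p Kk r e N') (H₀ : PrimeData Nl p Kk r e N'₀)
  {ϖ : O} {s0 : Sy.ι₁} (h : Plug.Hyp Sy 𝔪 p ϖ s0)
variable (j : ℕ)
  {N₀ : ℕ} [NeZero N₀] [NeZero (N₀ * p)] (hN₀ : N₀ * p = Nl * p * ∏ i : Fin j, r i)
  (S : Finset ℕ) (hNS : ∀ q : ℕ, q.Prime → q ∣ N₀ * p → q ∈ S)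
  (dℓ : PrimesOff (↑S : Set ℕ) → Gamma0 (Nl * p))
  (tw : ↥(heckeAlgebra (N₀ * p) 2 (↑S : Set ℕ)) →+*
    Module.End O ↥(parabolicHoms O (GammaH (Theta (Δs p e) H.psi j)) O))
  (htw : ∀ (l : PrimesOff (↑S : Set ℕ))
      (v : ↥(parabolicHoms O (GammaH (Theta (Δs p e) H.psi j)) O)),
    ((tw (formsGenS (N₀ * p) (↑S : Set ℕ) l) v :
        ↥(parabolicHoms O (GammaH (Theta (Δs p e) H.psi j)) O)) :
        Additive (GammaH (Theta (Δs p e) H.psi j)) →+ O)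
      = diaH (Theta (Δs p e) H.psi j) O (dℓ l) (GamH.TH (Theta (Δs p e) H.psi j) O
          (not_dvd_level (↑S : Set ℕ) (GB.B10.L.Ann.hS_of_hNS S hNS)
            (Dvd.intro _ hN₀.symm) l)
          (v : Additive (GammaH (Theta (Δs p e) H.psi j)) →+ O)))
  (hpar : ∀ x : (Plug.bigLevel Sy 𝔪 H h j).M,
    (Plug.bigReal Sy 𝔪 H h j).ι x ∈ parabolicHoms O (GammaH (Theta (Δs p e) H.psi j)) O)
  (twP : ↥(heckeAlgebra (N₀ * p) 2 (↑S : Set ℕ)) →+*
    Module.End O (Plug.bigLevel Sy 𝔪 H h j).M)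
  (hιP : ∀ (t : ↥(heckeAlgebra (N₀ * p) 2 (↑S : Set ℕ))) (m : (Plug.bigLevel Sy 𝔪 H h j).M),
    (Plug.bigReal Sy 𝔪 H h j).ι (twP t m) =
      ((tw t ⟨(Plug.bigReal Sy 𝔪 H h j).ι m, hpar m⟩ :
        ↥(parabolicHoms O (GammaH (Theta (Δs p e) H.psi j)) O)) :
        Additive (GammaH (Theta (Δs p e) H.psi j)) →+ O))

include htw hιP in
/-- **the `p`-new kernel of the big level `Plug.bigLevel Sy 𝔪 H h j`**: the morphisms of levels
`φα`, `φβ` of `Main.exists_levelHom_primeData` together with the two binders `hK` (stability of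
`K = ker (φα.f, φβ.f)` under `twP t`, every `t`) and `hKnew` (the classes of `K` are killed by the
two transfers) of `NewAnn.hAnn_ker_new`, VERBATIM. -/
theorem exists_kerData :
    ∃ (u : M0 Sy 𝔪 (Δs p e) H.psi ≃ₗ[O] M0 Sy 𝔪 (Δs p e) H.psi)
      (hu : ∀ t x, u (act0 Sy 𝔪 (Δs p e) H.psi t x) = act0 Sy 𝔪 (Δs p e) H.psi t (u x))
      (G : FreeLevel O (Sy.𝕋 O)
          (Base.locSub (actH (restrict Sy hrN) O (Theta (Δs p e) H₀.psi 0)) 𝔪)
          (Base.locSubAct (actH (restrict Sy hrN) O (Theta (Δs p e) H₀.psi 0)) 𝔪) j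
          (Nfun p e j))
      (R' : Realizes G (actH (restrict Sy hrN) O (Theta (Δs p e) H₀.psi j)) 𝔪
          (fun i => diaLin O (Theta (Δs p e) H₀.psi j) (dfun (ddN (H.dd hpF.out)) j i)))
      (φα : LevelHom (twistπ (Plug.bigLevel Sy 𝔪 H h j) u hu) G
        (f0αE hpNl (Δs p e) H₀.psi Sy hrN 𝔪 H.psi (Theta_eq_infl H H₀ 0)))
      (φβ : LevelHom (twistπ (Plug.bigLevel Sy 𝔪 H h j) u hu) G
        (f0βE hpNl (Δs p e) H₀.psi Sy hrN 𝔪 H.psi (Theta_eq_infl H H₀ 0))),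
      (∀ x : (Plug.bigLevel Sy 𝔪 H h j).M, R'.ι (φα.f x)
        = coresq (Theta (Δs p e) H₀.psi j) hpNl O
            (castΘ (Theta_eq_infl H H₀ j) O ((Plug.bigReal Sy 𝔪 H h j).ι x))) ∧
      (∀ x : (Plug.bigLevel Sy 𝔪 H h j).M, R'.ι (φβ.f x)
        = coresDq (Theta (Δs p e) H₀.psi j) hpNl O
            (castΘ (Theta_eq_infl H H₀ j) O ((Plug.bigReal Sy 𝔪 H h j).ι x))) ∧
      (∀ (t : ↥(heckeAlgebra (N₀ * p) 2 (↑S : Set ℕ))),
        ∀ x ∈ (LinearMap.ker (LevelHom.prod G G φα φβ).f :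
            Submodule O (Plug.bigLevel Sy 𝔪 H h j).M),
          twP t x ∈ (LinearMap.ker (LevelHom.prod G G φα φβ).f :
            Submodule O (Plug.bigLevel Sy 𝔪 H h j).M)) ∧
      (∀ x ∈ (LinearMap.ker (LevelHom.prod G G φα φβ).f :
            Submodule O (Plug.bigLevel Sy 𝔪 H h j).M),
        coresq (Theta (Δs p e) H₀.psi j) hpNl O
            (castθ (Theta_eq_infl H H₀ j) O ((Plug.bigReal Sy 𝔪 H h j).ι x)) = 0 ∧
          coresDq (Theta (Δs p e) H₀.psi j) hpNl O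
            (castθ (Theta_eq_infl H H₀ j) O ((Plug.bigReal Sy 𝔪 H h j).ι x)) = 0) := by
  have hdata := exists_levelHom_primeData hpNl Sy hrN 𝔪 H H₀ h j (Plug.bigLevel Sy 𝔪 H h j)
    (Plug.bigReal Sy 𝔪 H h j)
  obtain ⟨u, hu, G, R', φα, φβ, hα, hβ⟩ := hdata
  -- instance search does not see through `restrict Sy hrN` in the type of `G`
  letI iG : AddCommGroup G.M := FreeLevel.instAddCommGroup G
  letI mG : Module O G.M := FreeLevel.instModule G
  refine ⟨u, hu, G, R', φα, φβ, hα, hβ, ?_, ?_⟩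
  · intro t
    refine stable_of_gen (TwHom.closure_range_formsGenS (N₀ * p) (↑S : Set ℕ)) twP
      (LinearMap.ker (LevelHom.prod G G φα φβ).f) ?_ t
    rintro _ ⟨l, rfl⟩ x hx
    exact twist_mem_ker (Theta (Δs p e) H₀.psi j) hpNl (Theta (Δs p e) H.psi j)
      (Theta_eq_infl H H₀ j) (Plug.bigReal Sy 𝔪 H h j).ι R'.ι R'.inj φα.f φβ.f hα hβ (dℓ l)
      (not_dvd_level (↑S : Set ℕ) (GB.B10.L.Ann.hS_of_hNS S hNS)
        (Dvd.intro _ hN₀.symm) l)
      (fun m => twP (formsGenS (N₀ * p) (↑S : Set ℕ) l) m)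
      (fun m => (hιP _ m).trans (htw l ⟨_, hpar m⟩)) x hx
  · intro x hx
    exact new_of_ker (Theta (Δs p e) H₀.psi j) hpNl (Theta (Δs p e) H.psi j)
      (Theta_eq_infl H H₀ j) (Plug.bigReal Sy 𝔪 H h j).ι R'.ι φα.f φβ.f hα hβ x hx

include htw hιP in
/-- **(P2) + (P4): the `p`-new kernel of the big level with its (ANN)**: the data of
`exists_kerData` together with the conclusion of `NewAnn.hAnn_ker_new` for
`K = ker (φα.f, φβ.f)`: every `t₀ ∈ O ⊗ heckeAlgebra (N₀ p) 2 S` killing `O ⊗ LamNew` kills `K`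
through the restriction of `twP`. -/
theorem exists_kerData_ann [CharZero O] (hj : j ≤ Kk) (hp2 : p ≠ 2) (hpN₀ : ¬ p ∣ N₀)
    (hpS : p ∈ S)
    (hdℓ : ∀ (l : PrimesOff (↑S : Set ℕ)) (u : (ZMod (Nl * p))ˣ),
      (u : ZMod (Nl * p)) = ((l.1 : ℕ) : ZMod (Nl * p)) →
      chi (Theta (Δs p e) H.psi j) (dℓ l) ^ 2 * Theta (Δs p e) H.psi j u = 1) :
    ∃ (u : M0 Sy 𝔪 (Δs p e) H.psi ≃ₗ[O] M0 Sy 𝔪 (Δs p e) H.psi)
      (hu : ∀ t x, u (act0 Sy 𝔪 (Δs p e) H.psi t x) = act0 Sy 𝔪 (Δs p e) H.psi t (u x))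
      (G : FreeLevel O (Sy.𝕋 O)
          (Base.locSub (actH (restrict Sy hrN) O (Theta (Δs p e) H₀.psi 0)) 𝔪)
          (Base.locSubAct (actH (restrict Sy hrN) O (Theta (Δs p e) H₀.psi 0)) 𝔪) j
          (Nfun p e j))
      (R' : Realizes G (actH (restrict Sy hrN) O (Theta (Δs p e) H₀.psi j)) 𝔪
          (fun i => diaLin O (Theta (Δs p e) H₀.psi j) (dfun (ddN (H.dd hpF.out)) j i)))
      (φα : LevelHom (twistπ (Plug.bigLevel Sy 𝔪 H h j) u hu) G
        (f0αE hpNl (Δs p e) H₀.psi Sy hrN 𝔪 H.psi (Theta_eq_infl H H₀ 0)))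
      (φβ : LevelHom (twistπ (Plug.bigLevel Sy 𝔪 H h j) u hu) G
        (f0βE hpNl (Δs p e) H₀.psi Sy hrN 𝔪 H.psi (Theta_eq_infl H H₀ 0)))
      (hK : ∀ (t : ↥(heckeAlgebra (N₀ * p) 2 (↑S : Set ℕ))),
        ∀ x ∈ (LinearMap.ker (LevelHom.prod G G φα φβ).f :
            Submodule O (Plug.bigLevel Sy 𝔪 H h j).M),
          twP t x ∈ (LinearMap.ker (LevelHom.prod G G φα φβ).f :
            Submodule O (Plug.bigLevel Sy 𝔪 H h j).M)),
      (∀ x : (Plug.bigLevel Sy 𝔪 H h j).M, R'.ι (φα.f x)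
        = coresq (Theta (Δs p e) H₀.psi j) hpNl O
            (castΘ (Theta_eq_infl H H₀ j) O ((Plug.bigReal Sy 𝔪 H h j).ι x))) ∧
      (∀ x : (Plug.bigLevel Sy 𝔪 H h j).M, R'.ι (φβ.f x)
        = coresDq (Theta (Δs p e) H₀.psi j) hpNl O
            (castΘ (Theta_eq_infl H H₀ j) O ((Plug.bigReal Sy 𝔪 H h j).ι x))) ∧
      ∀ t₀ : O ⊗[ℤ] ↥(heckeAlgebra (N₀ * p) 2 (↑S : Set ℕ)),
        (∀ (a : O),
          ∀ x ∈ (LamNew hpN₀ : AddSubgroup
            (GB.B10.KumLevelHecke.levelData p (N₀ * p) hpS hNS).Λ),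
          (GB.B10.KumLevelHecke.levelData p (N₀ * p) hpS hNS).heckeTensor O t₀
            (a ⊗ₜ[ℤ] x) = 0) →
        ∀ m : (LinearMap.ker (LevelHom.prod G G φα φβ).f :
            Submodule O (Plug.bigLevel Sy 𝔪 H h j).M),
          twO O (restrictTw twP (LinearMap.ker (LevelHom.prod G G φα φβ).f :
            Submodule O (Plug.bigLevel Sy 𝔪 H h j).M) hK) t₀ m = 0 := by
  have hdata := exists_kerData Sy hpNl hrN 𝔪 H H₀ h j hN₀ S hNS dℓ tw htw hpar twP hιP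
  obtain ⟨u, hu, G, R', φα, φβ, hα, hβ, hK, hKnew⟩ := hdata
  exact ⟨u, hu, G, R', φα, φβ, hK, hα, hβ,
    hAnn_ker_new Sy hpNl 𝔪 H H₀ h j hj hp2 hN₀ hpN₀ S hpS hNS dℓ hdℓ tw htw hpar twP hιP
      _ hK hKnew⟩

end Plug

end GE8.RaiseP.P2.MainPlug

end

end Fermat.Agent.GE8.P3B
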