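import Mathlib
import Fermat.Agent.GE8.P3B.GB.B3.StepInst
import Fermat.Agent.GE8.P3B.GB.B3.LocTransportInstD
import Fermat.Agent.GE8.RaiseP.P2.StepPin
import Fermat.Agent.GE8.RaiseP.P2.KKSys2
import Fermat.Agent.GE8.P3B.StepGenPin

/- TWIN (helper86, GE8/P3 generator conventions of helper24) of `Fermat.Agent.GE8.RaiseP.P2.TowerPin` with `p ≠ 3` relaxed to `Ok3A Sy 𝔪 p` (RISK-5 fix (B)); everything below lives in the wrapper namespace `Fermat.Agent.GE8.P3B`. -/
set_option linter.dupNamespace false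
open Fermat Fermat.Agent Fermat.Agent.GB Fermat.Agent.GB.B3 Fermat.Agent.GB.B3.CycInst Fermat.Agent.GB.B3.CycPlug Fermat.Agent.GB.B3.EisGamma0 Fermat.Agent.GB.B3.FreeCyclic Fermat.Agent.GB.B3.HeckeAct Fermat.Agent.GB.B3.HeckeActH Fermat.Agent.GB.B3.RealLevel Fermat.Agent.GB.B3.TWLevel Fermat.Agent.GB.B7 Fermat.Agent.GB.B7.UqEquiv Fermat.Agent.GB.B7.UqSq Fermat.Agent.GE8 Fermat.Agent.GE8.RaiseP Fermat.Agent.GE8.RaiseP.P2 Fermat.Agent.GE8.RaiseP.P2.KKSys2 Fermat.Agent.GE8.RaiseP.P2.StepPin Fermat.Agent.GM Fermat.Agent.GM.B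

namespace Fermat.Agent.GE8.P3B

/-
GATE-E / E8.5 (ii) PNEW-PATCH, node (P2), file 3 (helper15): **the concrete tower step with the
pinned projection**, and the `p`-degeneracy transfers as linear maps with their equivariance.

* `coresLin θ π rep hrep` : the transfer `Hom(Γ_H(θ), O) → Hom(Γ_H(π ∘ θ), O)` of one step of the
  tower, as an `O`-linear map (`= (StepInst.exists_step_inst …).CS.cores`);
* `exists_step_inst_pinned` : helper95's `StepInst.exists_step_inst` with the pinned projection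
  carried along (`StepPin.exists_step_pinned`);
* `coresqLin`, `coresDqLin` : helper83's `coresq`, `coresDq` as `O`-linear maps;
  `coresqLin_act`, `coresqLin_dia` (+ `D` twins) : equivariance for `actH` (symbols restricted to the
  lower level, helper95 `LocTransport.actH_equivariant`) and for the diamond operators;
  `coresLin_coresqLin` (+ `D` twin) : they commute with one step of the tower (`KKSys2`).
-/

set_option autoImplicit false
set_option linter.unusedSectionVars false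
set_option linter.style.haveILetI false

open scoped MatrixGroups
open CongruenceSubgroup

namespace GE8.RaiseP.P2.TowerPin

open GM.B GB.B3 GB.B3.EisGamma0
  GB.B3.CycInst GB.B3.CycPlug GB.B3.FreeCyclic
  GB.B3.TWLevel GB.B3.RealLevel GB.B3.HeckeActH
  GB.B3.HeckeAct GB.B3.StepInst GB.B3.LocTransport
  GB.B3.LocTransportInst GB.B7.UqSq GB.B7.UqEquiv
  GE8.RaiseP.P2.StepPin GE8.RaiseP.P2.KKSys2

/-! ### one step of the tower, pinned -/

section Step

variable {N : ℕ} [NeZero N] (Sy : Symbols N)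
variable {O : Type} [CommRing O] [IsDomain O] [IsPrincipalIdealRing O] [IsLocalRing O]
  [IsAdicComplete (IsLocalRing.maximalIdeal O) O] [Module.IsTorsionFree ℤ O]
variable (𝔪 : Ideal (Sy.𝕋 O)) [𝔪.IsMaximal]
variable {M0 : Type} [AddCommGroup M0] [Module O M0] {act0 : Sy.𝕋 O →ₐ[O] Module.End O M0}
variable {k : ℕ} {Nk : Fin k → ℕ} (F : FreeLevel O (Sy.𝕋 O) M0 act0 k Nk)
variable {Δ Δ'' : Type} [CommGroup Δ] [CommGroup Δ''] (θ : (ZMod N)ˣ →* Δ) (π : Δ →* Δ'')
  [Fintype π.ker]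

/-- the transfer of one step of the tower, as an `O`-linear map -/
noncomputable def coresLin (O : Type) [CommRing O] (rep : π.ker → Gamma0 N)
    (hrep : ∀ δ : π.ker, chi θ (rep δ) = (δ : Δ)) :
    (Additive (GamH.GammaH θ) →+ O) →ₗ[O] (Additive (GamH.GammaH (π.comp θ)) →+ O) :=
  opLin O (coresKK (chi θ) π rep hrep embR)

omit [NeZero N] in
theorem coresLin_apply (rep : π.ker → Gamma0 N) (hrep : ∀ δ : π.ker, chi θ (rep δ) = (δ : Δ))
    (x : Additive (GamH.GammaH θ) →+ O) :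
    coresLin θ π O rep hrep x = GamH.coresHH θ π rep hrep O x := rfl

/-- **the concrete step of the tower, pinned** -/
theorem exists_step_inst_pinned
    (rep : π.ker → Gamma0 N) (hrep : ∀ δ : π.ker, chi θ (rep δ) = (δ : Δ))
    (d0 : Gamma0 N) (hd0 : chi θ d0 ∈ π.ker)
    (ϖ : O) (hϖ0 : ϖ ≠ 0) (hmax : IsLocalRing.maximalIdeal O = Ideal.span {ϖ})
    (p n : ℕ) (hp : p.Prime) (hpϖ : (p : O) ∈ Ideal.span {ϖ}) (hq : ((p ^ n : ℕ) : O) ≠ 0)
    (hord : orderOf (chi θ d0) = p ^ n) (hcard : Fintype.card π.ker = p ^ n)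
    (hneg : θ (-1) = 1) (h2 : ¬ 2 ∣ p ^ n) (h3 : Ok3A Sy 𝔪 p)
    (s0 : Sy.ι₁) (hτ : tauOf Sy O s0 ∉ 𝔪)
    (d : Fin k → Gamma0 N) (hdpow : ∀ i, chi θ (d i ^ Nk i) = 1)
    (R : Realizes F (actH Sy O (π.comp θ)) 𝔪 (fun i => diaLin O (π.comp θ) (d i)))
    {Lb : Type} [AddCommGroup Lb] [Module O Lb] (ι0 : M0 →ₗ[O] Lb)
    (T0 : (Additive (GamH.GammaH (π.comp θ)) →+ O) →ₗ[O] Lb) (hpin : Pinned R ι0 T0) :
    ∃ (F' : FreeLevel O (Sy.𝕋 O) M0 act0 (k + 1) (Fin.cons (p ^ n) Nk : Fin (k + 1) → ℕ))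
      (R' : Realizes F' (actH Sy O θ) 𝔪
        (fun i => diaLin O θ ((Fin.cons d0 d : Fin (k + 1) → Gamma0 N) i))),
      Pinned R' ι0 (T0 ∘ₗ coresLin θ π O rep hrep) :=
  StepGen.exists_step_inst_pinned_gen Sy 𝔪 F θ π rep hrep d0 hd0 ϖ hϖ0 hmax p n hp hpϖ hq hord hcard
    hneg h2 h3 s0 hτ d hdpow R ι0 T0 hpin

end Step

/-! ### the `p`-degeneracy transfers as linear maps -/

section Degen

variable {N q : ℕ} [Fact q.Prime] {Δ : Type} [CommGroup Δ] (θ' : (ZMod N)ˣ →* Δ) (hqN : ¬ q ∣ N)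
variable (O : Type) [CommRing O]

/-- helper83's `coresq` as an `O`-linear map -/
noncomputable def coresqLin :
    (Additive (GamH.GammaH (thQ θ' q)) →+ O) →ₗ[O] (Additive (GamH.GammaH θ') →+ O) where
  toFun := coresq θ' hqN O
  map_add' := map_add _
  map_smul' c ν := coresq_smul θ' hqN c ν

/-- helper83's `coresDq` as an `O`-linear map -/
noncomputable def coresDqLin :
    (Additive (GamH.GammaH (thQ θ' q)) →+ O) →ₗ[O] (Additive (GamH.GammaH θ') →+ O) where
  toFun := coresDq θ' hqN O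
  map_add' := map_add _
  map_smul' c ν := coresDq_smul θ' hqN c ν

variable {O}

theorem coresqLin_apply (ν : Additive (GamH.GammaH (thQ θ' q)) →+ O) :
    coresqLin θ' hqN O ν = coresq θ' hqN O ν := rfl

theorem coresDqLin_apply (ν : Additive (GamH.GammaH (thQ θ' q)) →+ O) :
    coresDqLin θ' hqN O ν = coresDq θ' hqN O ν := rfl

variable (Sy : Symbols (N * q)) (hrN : ∀ j, Sy.r j ∣ N)

/-- **`coresq` is equivariant for the symbols** -/
theorem coresqLin_act (t : Sy.𝕋 O) (ν : Additive (GamH.GammaH (thQ θ' q)) →+ O) :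
    coresqLin θ' hqN O (actH Sy O (thQ θ' q) t ν)
      = actH (restrict Sy hrN) O θ' t (coresqLin θ' hqN O ν) := by
  refine actH_equivariant Sy hrN (thQ θ' q) θ' (coresq θ' hqN O) (coresq_smul θ' hqN) ?_ ?_ t ν
  · intro i ν
    haveI := Sy.factℓ i
    exact coresq_TH θ' hqN (Sy.hℓN i) ν
  · intro j ν
    haveI : Fact (Sy.r j).Prime := ⟨Sy.hr j⟩
    haveI := Sy.neZeroR j
    exact coresq_UH θ' hqN (hrN j) ν

/-- **`coresDq` is equivariant for the symbols** -/
theorem coresDqLin_act (t : Sy.𝕋 O) (ν : Additive (GamH.GammaH (thQ θ' q)) →+ O) :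
    coresDqLin θ' hqN O (actH Sy O (thQ θ' q) t ν)
      = actH (restrict Sy hrN) O θ' t (coresDqLin θ' hqN O ν) := by
  refine actH_equivariant Sy hrN (thQ θ' q) θ' (coresDq θ' hqN O) (coresDq_smul θ' hqN) ?_ ?_ t ν
  · intro i ν
    haveI := Sy.factℓ i
    exact GB.B7.UqEquivAll.coresDq_TH θ' hqN (Sy.hℓN i) ν
  · intro j ν
    haveI : Fact (Sy.r j).Prime := ⟨Sy.hr j⟩
    haveI := Sy.neZeroR j
    exact GB.B7.UqEquivAll.coresDq_UH θ' hqN (hrN j) ν

/-- **`coresq` intertwines the diamond operators** of elements with the same character value -/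
theorem coresqLin_dia (d : Gamma0 (N * q)) (d' : Gamma0 N) (hd : chi (thQ θ' q) d = chi θ' d')
    (ν : Additive (GamH.GammaH (thQ θ' q)) →+ O) :
    coresqLin θ' hqN O (diaLin O (thQ θ' q) d ν) = diaLin O θ' d' (coresqLin θ' hqN O ν) :=
  coresq_diaH θ' hqN d d' hd ν

/-- **`coresDq` intertwines the diamond operators** of elements with the same character value -/
theorem coresDqLin_dia (d : Gamma0 (N * q)) (d' : Gamma0 N) (hd : chi (thQ θ' q) d = chi θ' d')
    (ν : Additive (GamH.GammaH (thQ θ' q)) →+ O) :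
    coresDqLin θ' hqN O (diaLin O (thQ θ' q) d ν) = diaLin O θ' d' (coresDqLin θ' hqN O ν) :=
  coresDq_diaH θ' hqN d d' hd ν

variable {Δ'' : Type} [CommGroup Δ''] (π : Δ →* Δ'') [Fintype π.ker]
  (rep : π.ker → Gamma0 N) (hrep : ∀ δ : π.ker, chi θ' (rep δ) = (δ : Δ))
  (repq : π.ker → Gamma0 (N * q)) (hrepq : ∀ δ : π.ker, chi (thQ θ' q) (repq δ) = (δ : Δ))

/-- **`coresq` commutes with one step of the tower** -/
theorem coresLin_coresqLin (ν : Additive (GamH.GammaH (thQ θ' q)) →+ O) :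
    coresLin θ' π O rep hrep (coresqLin θ' hqN O ν)
      = coresqLin (π.comp θ') hqN O (coresLin (thQ θ' q) π O repq hrepq ν) :=
  coresHH_coresq θ' π hqN rep hrep repq hrepq ν

/-- **`coresDq` commutes with one step of the tower** -/
theorem coresLin_coresDqLin (ν : Additive (GamH.GammaH (thQ θ' q)) →+ O) :
    coresLin θ' π O rep hrep (coresDqLin θ' hqN O ν)
      = coresDqLin (π.comp θ') hqN O (coresLin (thQ θ' q) π O repq hrepq ν) :=
  coresHH_coresDq θ' π hqN rep hrep repq hrepq ν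

end Degen

end GE8.RaiseP.P2.TowerPin

end Fermat.Agent.GE8.P3B
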