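/-
GATE-E / E8.5 (ii) PNEW-PATCH, node (P2), file 4 (helper15): **the two Taylor–Wiles towers at the
levels `N q` and `N`, run simultaneously with pinned projections**, and the morphisms of levels
`coresq`, `coresDq` between them.

Data: characters `ψ' i : (ZMod N)ˣ →* Δs i` at level `N`, inflated to level `N q`
(`ψ i = thQ (ψ' i) q`, so `Theta Δs ψ j = thQ (Theta Δs ψ' j) q` by `rfl`); diamond elements
`dd i ∈ Γ₀(N q)` and their images `degenOne N q (dd i) ∈ Γ₀(N)` (the SAME matrices, hence the same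
character values: the diamond operators match on the nose); symbols `Sy` at level `N q` with
`U`-primes dividing `N`, restricted to level `N` (the SAME symbol algebra).

* `exists_tower_pair` : for every `j`, levels `F` (at `N q`) and `G` (at `N`) with `j` diamonds,
  realised in `Hom(Γ_H(Theta j), O)_𝔪`, with projections pinned to ambient maps `T`, `T'` such that
  `T' ∘ coresq_j = coresq_0 ∘ T`, `T' ∘ coresDq_j = coresDq_0 ∘ T`;
* `f0α`, `f0β` : the restrictions of `coresq`, `coresDq` at stage `0` to the base modules;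
* `exists_levelHom_pair` : … hence `LevelHom F G f0α`, `LevelHom F G f0β` (helper80's
  `NewLevel.LevelHom`) with `R'.ι (φα.f x) = coresq (R.ι x)`, `R'.ι (φβ.f x) = coresDq (R.ι x)`.
-/
import Mathlib
import Fermat.Agent.GE8.P3B.GB.B3.Final
import Fermat.Agent.GE8.P3B.GE8.RaiseP.P2.TowerPin
import Fermat.Agent.GE8.P3B.StepGen
import Fermat.Agent.GE8.P3B.Ok3W

/- TWIN (helper6 B4 generator; conventions of helper24 / helper86) of `Fermat.Agent.GE8.RaiseP.P2.Pair` with `p ≠ 3` relaxed to `Ok3A Sy 𝔪 p` / `Ok3W p W` (RISK-5 fix (B), step B4); everything below lives in the wrapper namespace `Fermat.Agent.GE8.P3B`. -/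
set_option linter.dupNamespace false
open Fermat Fermat.Agent Fermat.Agent.GB Fermat.Agent.GB.B3 Fermat.Agent.GB.B3.CycInst Fermat.Agent.GB.B3.CycPlug Fermat.Agent.GB.B3.EisGamma0 Fermat.Agent.GB.B3.FreeCyclic Fermat.Agent.GB.B3.HeckeAct Fermat.Agent.GB.B3.HeckeActH Fermat.Agent.GB.B3.RealLevel Fermat.Agent.GB.B3.TWLevel Fermat.Agent.GB.B7 Fermat.Agent.GB.B7.UqSq Fermat.Agent.GE8 Fermat.Agent.GE8.RaiseP Fermat.Agent.GE8.RaiseP.NewLevel Fermat.Agent.GE8.RaiseP.P2 Fermat.Agent.GE8.RaiseP.P2.StepPin Fermat.Agent.GM Fermat.Agent.GM.Amalgam Fermat.Agent.GM.B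

namespace Fermat.Agent.GE8.P3B

set_option autoImplicit false
set_option linter.unusedSectionVars false
set_option linter.style.haveILetI false

open scoped MatrixGroups
open CongruenceSubgroup

namespace GE8.RaiseP.P2.Pair

open GM.B GM.Amalgam GB.B3 GB.B3.EisGamma0
  GB.B3.CycInst GB.B3.CycPlug GB.B3.FreeCyclic
  GB.B3.TWLevel GB.B3.RealLevel GB.B3.HeckeActH
  GB.B3.HeckeAct GB.B3.StepInst GB.B3.Tower
  GB.B3.LocTransport GB.B3.LocTransportInst
  GB.B3.LocTransportInstD GB.B7.UqSq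
  GE8.RaiseP.NewLevel GE8.RaiseP.P2.StepPin
  GE8.RaiseP.P2.TowerPin

/-! ### small tools -/

/-- change the family of ambient diamond operators of a realisation to a pointwise equal one -/
def realizesCongr {O : Type} [CommRing O] {A : Type} [CommRing A] [Algebra O A]
    {M0 : Type} [AddCommGroup M0] [Module O M0] {act0 : A →ₐ[O] Module.End O M0}
    {k : ℕ} {Nk : Fin k → ℕ} {F : FreeLevel O A M0 act0 k Nk}
    {L : Type} [AddCommGroup L] [Module O L] {actL : A →ₐ[O] Module.End O L} {𝔪 : Ideal A}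
    {E E' : Fin k → Module.End O L} (R : Realizes F actL 𝔪 E) (h : ∀ i x, E i x = E' i x) :
    Realizes F actL 𝔪 E' where
  ι := R.ι
  inj := R.inj
  range := R.range
  ι_act := R.ι_act
  ι_D i x := by rw [R.ι_D, h]

/-- a section of `χ_θ` over the cyclic group `ker π` generated by `χ_θ(d0)` -/
theorem exists_rep_of_gen {N : ℕ} {Δ Δ'' : Type} [CommGroup Δ] [CommGroup Δ'']
    (θ : (ZMod N)ˣ →* Δ) (π : Δ →* Δ'') [Fintype π.ker] (m : ℕ) (d0 : Gamma0 N)
    (hd0 : chi θ d0 ∈ π.ker) (hord : orderOf (chi θ d0) = m) (hcard : Fintype.card π.ker = m) :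
    ∃ rep : π.ker → Gamma0 N, ∀ δ : π.ker, chi θ (rep δ) = (δ : Δ) := by
  have hb := pow_bijectiveKK (chi θ) π m d0 hd0 hord hcard
  refine ⟨fun δ => d0 ^ ((hb.2 δ).choose : ℕ), fun δ => ?_⟩
  have h := (hb.2 δ).choose_spec
  show chi θ (d0 ^ ((hb.2 δ).choose : ℕ)) = (δ : Δ)
  rw [map_pow]
  exact congrArg Subtype.val h

/-- the character values of `d ∈ Γ₀(N q)` and of its image in `Γ₀(N)` -/
theorem thQ_dUnits {N q : ℕ} {Δ : Type} [CommGroup Δ] (θ' : (ZMod N)ˣ →* Δ) (d : Gamma0 (N * q)) :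
    thQ θ' q (dUnits (N * q) d) = θ' (dUnits N (degenOne N q d)) :=
  chi_thQ_of_coe θ' d (degenOne N q d) (degenOne_coe d)

/-- the hypotheses of one step of the tower, from the hypotheses of `Tower.exists_tower` -/
theorem step_hyps {N : ℕ} (Δs : ℕ → Type) [∀ i, CommGroup (Δs i)] (ψ : ∀ i, (ZMod N)ˣ →* Δs i)
    (p : ℕ) (n : ℕ → ℕ) (dd : ℕ → Gamma0 N)
    (hord : ∀ i, orderOf (ψ i (dUnits N (dd i))) = p ^ n i)
    (hoff : ∀ i j, i ≠ j → ψ i (dUnits N (dd j)) = 1)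
    (hneg : ∀ i, ψ i (-1) = 1) (j : ℕ) :
    chi (Theta Δs ψ (j + 1)) (dd j) ∈ (initHom Δs j).ker ∧
      orderOf (chi (Theta Δs ψ (j + 1)) (dd j)) = p ^ n j ∧
      Theta Δs ψ (j + 1) (-1) = 1 ∧
      ∀ i : Fin j, chi (Theta Δs ψ (j + 1)) (dfun dd j i ^ Nfun p n j i) = 1 := by
  have hval : ∀ (m : ℕ) (i : Fin (j + 1)),
      chi (Theta Δs ψ (j + 1)) (dd m) i = ψ i (dUnits N (dd m)) := fun m i => rfl
  refine ⟨?_, ?_, ?_, ?_⟩
  · rw [MonoidHom.mem_ker]
    funext i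
    show chi (Theta Δs ψ (j + 1)) (dd j) (Fin.castSucc i) = 1
    rw [hval]
    exact hoff _ _ (by rw [Fin.val_castSucc]; exact Nat.ne_of_lt i.2)
  · rw [← hord j]
    refine orderOf_eq_orderOf_iff.2 fun m => ?_
    constructor
    · intro h
      have h1 := congrFun h (Fin.last j)
      rw [Pi.pow_apply, hval] at h1
      exact h1
    · intro h
      funext i
      rw [Pi.pow_apply, hval, Pi.one_apply]
      refine Fin.lastCases ?_ (fun i' => ?_) i
      · exact h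
      · rw [hoff _ _ (by rw [Fin.val_castSucc]; exact Nat.ne_of_lt i'.2), one_pow]
  · funext i
    exact hneg i
  · intro i
    rw [map_pow, dfun_apply, Nfun_apply]
    funext i'
    rw [Pi.pow_apply, hval, Pi.one_apply]
    by_cases h : (i' : ℕ) = j - 1 - i
    · rw [← h, ← hord, pow_orderOf_eq_one]
    · rw [hoff _ _ h, one_pow]

/-! ### the two towers -/

section Towers

variable {N q : ℕ} [NeZero N] [NeZero (N * q)] [Fact q.Prime] (hqN : ¬ q ∣ N)
variable (Δs : ℕ → Type) [∀ i, CommGroup (Δs i)] [∀ i, Fintype (Δs i)]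
  (ψ' : ∀ i, (ZMod N)ˣ →* Δs i)
variable (Sy : Symbols (N * q)) (hrN : ∀ j, Sy.r j ∣ N)
variable {O : Type} [CommRing O] [IsDomain O] [IsPrincipalIdealRing O] [IsLocalRing O]
  [IsAdicComplete (IsLocalRing.maximalIdeal O) O] [Module.IsTorsionFree ℤ O]
variable (𝔪 : Ideal (Sy.𝕋 O)) [𝔪.IsMaximal]

/-- the inflated characters at level `N q` -/
noncomputable abbrev ψq (i : ℕ) : (ZMod (N * q))ˣ →* Δs i := thQ (ψ' i) q

/-- the diamond elements at level `N`: the images of those at level `N q` -/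
noncomputable abbrev ddN (dd : ℕ → Gamma0 (N * q)) (i : ℕ) : Gamma0 N := degenOne N q (dd i)

/-- **the two towers, with pinned projections commuting with the `p`-degeneracy transfers** -/
theorem exists_tower_pair
    (ϖ : O) (hϖ0 : ϖ ≠ 0) (hmax : IsLocalRing.maximalIdeal O = Ideal.span {ϖ})
    (p : ℕ) (hp : p.Prime) (hpϖ : (p : O) ∈ Ideal.span {ϖ}) (hp0 : (p : O) ≠ 0)
    (hp2 : p ≠ 2) (hp3 : Ok3A Sy 𝔪 p) (n : ℕ → ℕ) (dd : ℕ → Gamma0 (N * q))
    (hcard : ∀ i, Fintype.card (Δs i) = p ^ n i)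
    (hord : ∀ i, orderOf (ψq (q := q) Δs ψ' i (dUnits (N * q) (dd i))) = p ^ n i)
    (hoff : ∀ i j, i ≠ j → ψq (q := q) Δs ψ' i (dUnits (N * q) (dd j)) = 1)
    (hneg : ∀ i, ψ' i (-1) = 1)
    (s0 : Sy.ι₁) (hτ : tauOf Sy O s0 ∉ 𝔪) (j : ℕ) :
    ∃ (F : FreeLevel O (Sy.𝕋 O)
          (Base.locSub (actH Sy O (Theta Δs (ψq (q := q) Δs ψ') 0)) 𝔪)
          (Base.locSubAct (actH Sy O (Theta Δs (ψq (q := q) Δs ψ') 0)) 𝔪) j (Nfun p n j))
      (R : Realizes F (actH Sy O (Theta Δs (ψq (q := q) Δs ψ') j)) 𝔪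
          (fun i => diaLin O (Theta Δs (ψq (q := q) Δs ψ') j) (dfun dd j i)))
      (G : FreeLevel O (Sy.𝕋 O)
          (Base.locSub (actH (restrict Sy hrN) O (Theta Δs ψ' 0)) 𝔪)
          (Base.locSubAct (actH (restrict Sy hrN) O (Theta Δs ψ' 0)) 𝔪) j (Nfun p n j))
      (R' : Realizes G (actH (restrict Sy hrN) O (Theta Δs ψ' j)) 𝔪
          (fun i => diaLin O (Theta Δs ψ' j) (dfun (ddN dd) j i)))
      (T : (Additive (GamH.GammaH (Theta Δs (ψq (q := q) Δs ψ') j)) →+ O) →ₗ[O]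
          (Additive (GamH.GammaH (Theta Δs (ψq (q := q) Δs ψ') 0)) →+ O))
      (T' : (Additive (GamH.GammaH (Theta Δs ψ' j)) →+ O) →ₗ[O]
          (Additive (GamH.GammaH (Theta Δs ψ' 0)) →+ O)),
      Pinned R (Base.locSub (actH Sy O (Theta Δs (ψq (q := q) Δs ψ') 0)) 𝔪).subtype T ∧
      Pinned R' (Base.locSub (actH (restrict Sy hrN) O (Theta Δs ψ' 0)) 𝔪).subtype T' ∧
      (∀ x, T' (coresqLin (Theta Δs ψ' j) hqN O x)
        = coresqLin (Theta Δs ψ' 0) hqN O (T x)) ∧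
      (∀ x, T' (coresDqLin (Theta Δs ψ' j) hqN O x)
        = coresDqLin (Theta Δs ψ' 0) hqN O (T x)) := by
  classical
  haveI hmax' : Ideal.IsMaximal (show Ideal ((restrict Sy hrN).𝕋 O) from 𝔪) := ‹𝔪.IsMaximal›
  -- the hypotheses at level `N`
  have hordN : ∀ i, orderOf (ψ' i (dUnits N (ddN dd i))) = p ^ n i := fun i => by
    rw [← thQ_dUnits]; exact hord i
  have hoffN : ∀ i j, i ≠ j → ψ' i (dUnits N (ddN dd j)) = 1 := fun i j hij => by
    rw [← thQ_dUnits]; exact hoff i j hij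
  have hnegq : ∀ i, ψq (q := q) Δs ψ' i (-1) = 1 := fun i => by
    show ψ' i (ZMod.unitsMap (Nat.dvd_mul_right N q) (-1)) = 1
    have h1 : ZMod.unitsMap (Nat.dvd_mul_right N q) (-1) = -1 := by
      apply Units.ext
      rw [ZMod.unitsMap_val, Units.val_neg, Units.val_one, Units.val_neg, Units.val_one]
      simp
    rw [h1]
    exact hneg i
  induction j with
  | zero =>
    haveI : (GamH.GammaH (Theta Δs (ψq (q := q) Δs ψ') 0)).FiniteIndex := finiteIndex_GammaH _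
    haveI : Module.Finite O (Additive (GamH.GammaH (Theta Δs (ψq (q := q) Δs ψ') 0)) →+ O) :=
      HomFree.homFinite_SL2Z _ O
    haveI : Module.Free O (Additive (GamH.GammaH (Theta Δs (ψq (q := q) Δs ψ') 0)) →+ O) :=
      HomFree.homFree_SL2Z _ O
    haveI : (GamH.GammaH (Theta Δs ψ' 0)).FiniteIndex := finiteIndex_GammaH _
    haveI : Module.Finite O (Additive (GamH.GammaH (Theta Δs ψ' 0)) →+ O) :=
      HomFree.homFinite_SL2Z _ O
    haveI : Module.Free O (Additive (GamH.GammaH (Theta Δs ψ' 0)) →+ O) :=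
      HomFree.homFree_SL2Z _ O
    obtain ⟨d, ⟨b0⟩⟩ := Base.exists_basis_locSub
      (actH Sy O (Theta Δs (ψq (q := q) Δs ψ') 0)) 𝔪
    obtain ⟨d', ⟨b0'⟩⟩ := Base.exists_basis_locSub
      (actH (restrict Sy hrN) O (Theta Δs ψ' 0)) 𝔪
    refine ⟨Base.baseLevel _ 𝔪 b0,
      realizesCongr (Base.realizesBase _ 𝔪 b0) (fun i => i.elim0),
      Base.baseLevel _ 𝔪 b0',
      realizesCongr (Base.realizesBase _ 𝔪 b0') (fun i => i.elim0),
      LinearMap.id, LinearMap.id, fun _ => rfl, fun _ => rfl, fun _ => rfl, fun _ => rfl⟩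
  | succ j ih =>
    obtain ⟨F, R, G, R', T, T', hT, hT', hα, hβ⟩ := ih
    haveI : Fintype (initHom Δs j).ker := Fintype.ofEquiv (Δs j) (kerEquiv Δs j).symm
    have hcardk : Fintype.card (initHom Δs j).ker = p ^ n j := by
      rw [Fintype.card_congr (kerEquiv Δs j), hcard]
    have hq : ((p ^ n j : ℕ) : O) ≠ 0 := by
      rw [Nat.cast_pow]
      exact pow_ne_zero _ hp0
    obtain ⟨hd0, hordj, hnegj, hdpow⟩ :=
      step_hyps Δs (ψq (q := q) Δs ψ') p n dd hord hoff hnegq j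
    obtain ⟨hd0N, hordjN, hnegjN, hdpowN⟩ :=
      step_hyps Δs ψ' p n (ddN dd) hordN hoffN hneg j
    obtain ⟨rep, hrep⟩ := exists_rep_of_gen (Theta Δs (ψq (q := q) Δs ψ') (j + 1))
      (initHom Δs j) (p ^ n j) (dd j) hd0 hordj hcardk
    obtain ⟨repN, hrepN⟩ := exists_rep_of_gen (Theta Δs ψ' (j + 1))
      (initHom Δs j) (p ^ n j) (ddN dd j) hd0N hordjN hcardk
    obtain ⟨F₁, R₁, hT₁⟩ := exists_step_inst_pinned Sy 𝔪 F
      (Theta Δs (ψq (q := q) Δs ψ') (j + 1)) (initHom Δs j) rep hrep (dd j) hd0 ϖ hϖ0 hmax p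
      (n j) hp hpϖ hq hordj hcardk hnegj (not_dvd_prime_pow hp Nat.prime_two hp2 _)
      hp3 s0 hτ (dfun dd j) hdpow R _ T hT
    obtain ⟨G₁, R'₁, hT'₁⟩ := exists_step_inst_pinned (restrict Sy hrN) 𝔪 G
      (Theta Δs ψ' (j + 1)) (initHom Δs j) repN hrepN (ddN dd j) hd0N ϖ hϖ0 hmax p
      (n j) hp hpϖ hq hordjN hcardk hnegjN (not_dvd_prime_pow hp Nat.prime_two hp2 _)
      hp3 s0 hτ (dfun (ddN dd) j) hdpowN R' _ T' hT'
    refine ⟨F₁, R₁, G₁, R'₁, _, _, hT₁, hT'₁, ?_, ?_⟩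
    · intro x
      show T' (coresLin (Theta Δs ψ' (j + 1)) (initHom Δs j) O repN hrepN
          (coresqLin (Theta Δs ψ' (j + 1)) hqN O x))
        = coresqLin (Theta Δs ψ' 0) hqN O
          (T (coresLin (Theta Δs (ψq (q := q) Δs ψ') (j + 1)) (initHom Δs j) O rep hrep x))
      exact (congrArg T' (coresLin_coresqLin (Theta Δs ψ' (j + 1)) hqN (initHom Δs j) repN hrepN
        rep hrep x)).trans (hα _)
    · intro x
      show T' (coresLin (Theta Δs ψ' (j + 1)) (initHom Δs j) O repN hrepN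
          (coresDqLin (Theta Δs ψ' (j + 1)) hqN O x))
        = coresDqLin (Theta Δs ψ' 0) hqN O
          (T (coresLin (Theta Δs (ψq (q := q) Δs ψ') (j + 1)) (initHom Δs j) O rep hrep x))
      exact (congrArg T' (coresLin_coresDqLin (Theta Δs ψ' (j + 1)) hqN (initHom Δs j) repN hrepN
        rep hrep x)).trans (hβ _)

/-! ### the base maps and the morphisms of levels -/

/-- the base map `α_*` : the restriction of `coresq` at stage `0` to the `𝔪`-primary parts -/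
noncomputable def f0α :
    ↥(Base.locSub (actH Sy O (Theta Δs (ψq (q := q) Δs ψ') 0)) 𝔪) →ₗ[O]
      ↥(Base.locSub (actH (restrict Sy hrN) O (Theta Δs ψ' 0)) 𝔪) :=
  (coresqLin (Theta Δs ψ' 0) hqN O).restrict
    (fun _ hx => isLoc_coresq Sy hrN (Theta Δs ψ' 0) hqN 𝔪 hx)

/-- the base map `β_*` : the restriction of `coresDq` at stage `0` to the `𝔪`-primary parts -/
noncomputable def f0β :
    ↥(Base.locSub (actH Sy O (Theta Δs (ψq (q := q) Δs ψ') 0)) 𝔪) →ₗ[O]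
      ↥(Base.locSub (actH (restrict Sy hrN) O (Theta Δs ψ' 0)) 𝔪) :=
  (coresDqLin (Theta Δs ψ' 0) hqN O).restrict
    (fun _ hx => isLoc_coresDq Sy hrN (Theta Δs ψ' 0) hqN 𝔪 hx)

omit [NeZero N] [NeZero (N * q)] [∀ i, Fintype (Δs i)] [IsDomain O] [IsPrincipalIdealRing O]
  [IsLocalRing O] [IsAdicComplete (IsLocalRing.maximalIdeal O) O] [Module.IsTorsionFree ℤ O]
  [𝔪.IsMaximal] in
@[simp] theorem coe_f0α (y : ↥(Base.locSub (actH Sy O (Theta Δs (ψq (q := q) Δs ψ') 0)) 𝔪)) :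
    ((f0α hqN Δs ψ' Sy hrN 𝔪 y : ↥(Base.locSub (actH (restrict Sy hrN) O (Theta Δs ψ' 0)) 𝔪)) :
        Additive (GamH.GammaH (Theta Δs ψ' 0)) →+ O)
      = coresq (Theta Δs ψ' 0) hqN O y.1 :=
  rfl

omit [NeZero N] [NeZero (N * q)] [∀ i, Fintype (Δs i)] [IsDomain O] [IsPrincipalIdealRing O]
  [IsLocalRing O] [IsAdicComplete (IsLocalRing.maximalIdeal O) O] [Module.IsTorsionFree ℤ O]
  [𝔪.IsMaximal] in
@[simp] theorem coe_f0β (y : ↥(Base.locSub (actH Sy O (Theta Δs (ψq (q := q) Δs ψ') 0)) 𝔪)) :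
    ((f0β hqN Δs ψ' Sy hrN 𝔪 y : ↥(Base.locSub (actH (restrict Sy hrN) O (Theta Δs ψ' 0)) 𝔪)) :
        Additive (GamH.GammaH (Theta Δs ψ' 0)) →+ O)
      = coresDq (Theta Δs ψ' 0) hqN O y.1 :=
  rfl

omit [NeZero N] [NeZero (N * q)] [∀ i, Fintype (Δs i)] [IsDomain O] [IsPrincipalIdealRing O]
  [IsLocalRing O] [IsAdicComplete (IsLocalRing.maximalIdeal O) O] [Module.IsTorsionFree ℤ O]
  [𝔪.IsMaximal] in
/-- the diamond elements at the two levels have the same character values -/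
theorem chi_dfun (dd : ℕ → Gamma0 (N * q)) (j : ℕ) (i : Fin j) :
    chi (thQ (Theta Δs ψ' j) q) (dfun dd j i) = chi (Theta Δs ψ' j) (dfun (ddN dd) j i) := by
  rw [dfun_apply, dfun_apply]
  exact chi_thQ_of_coe (Theta Δs ψ' j) _ _ (degenOne_coe _)

/-- **the morphisms of levels `α_*`, `β_*` between the two towers** -/
theorem exists_levelHom_pair
    (ϖ : O) (hϖ0 : ϖ ≠ 0) (hmax : IsLocalRing.maximalIdeal O = Ideal.span {ϖ})
    (p : ℕ) (hp : p.Prime) (hpϖ : (p : O) ∈ Ideal.span {ϖ}) (hp0 : (p : O) ≠ 0)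
    (hp2 : p ≠ 2) (hp3 : Ok3A Sy 𝔪 p) (n : ℕ → ℕ) (dd : ℕ → Gamma0 (N * q))
    (hcard : ∀ i, Fintype.card (Δs i) = p ^ n i)
    (hord : ∀ i, orderOf (ψq (q := q) Δs ψ' i (dUnits (N * q) (dd i))) = p ^ n i)
    (hoff : ∀ i j, i ≠ j → ψq (q := q) Δs ψ' i (dUnits (N * q) (dd j)) = 1)
    (hneg : ∀ i, ψ' i (-1) = 1)
    (s0 : Sy.ι₁) (hτ : tauOf Sy O s0 ∉ 𝔪) (j : ℕ) :
    ∃ (F : FreeLevel O (Sy.𝕋 O)
          (Base.locSub (actH Sy O (Theta Δs (ψq (q := q) Δs ψ') 0)) 𝔪)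
          (Base.locSubAct (actH Sy O (Theta Δs (ψq (q := q) Δs ψ') 0)) 𝔪) j (Nfun p n j))
      (R : Realizes F (actH Sy O (Theta Δs (ψq (q := q) Δs ψ') j)) 𝔪
          (fun i => diaLin O (Theta Δs (ψq (q := q) Δs ψ') j) (dfun dd j i)))
      (G : FreeLevel O (Sy.𝕋 O)
          (Base.locSub (actH (restrict Sy hrN) O (Theta Δs ψ' 0)) 𝔪)
          (Base.locSubAct (actH (restrict Sy hrN) O (Theta Δs ψ' 0)) 𝔪) j (Nfun p n j))
      (R' : Realizes G (actH (restrict Sy hrN) O (Theta Δs ψ' j)) 𝔪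
          (fun i => diaLin O (Theta Δs ψ' j) (dfun (ddN dd) j i)))
      (φα : LevelHom F G (f0α hqN Δs ψ' Sy hrN 𝔪)) (φβ : LevelHom F G (f0β hqN Δs ψ' Sy hrN 𝔪)),
      (∀ x, R'.ι (φα.f x) = coresq (Theta Δs ψ' j) hqN O (R.ι x)) ∧
      (∀ x, R'.ι (φβ.f x) = coresDq (Theta Δs ψ' j) hqN O (R.ι x)) := by
  obtain ⟨F, R, G, R', T, T', hT, hT', hα, hβ⟩ := exists_tower_pair hqN Δs ψ' Sy hrN 𝔪 ϖ hϖ0 hmax
    p hp hpϖ hp0 hp2 hp3 n dd hcard hord hoff hneg s0 hτ j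
  obtain ⟨φα, hφα⟩ := exists_levelHom_of_pinned R R' hT hT' Subtype.val_injective
    (coresqLin (Theta Δs ψ' j) hqN O)
    (fun t x => coresqLin_act (Theta Δs ψ' j) hqN Sy hrN t x)
    (fun i x => coresqLin_dia (Theta Δs ψ' j) hqN _ _ (chi_dfun Δs ψ' dd j i) x)
    (coresqLin (Theta Δs ψ' 0) hqN O) (fun x => (hα x).symm)
    (f0α hqN Δs ψ' Sy hrN 𝔪) (fun _ => rfl)
  obtain ⟨φβ, hφβ⟩ := exists_levelHom_of_pinned R R' hT hT' Subtype.val_injective
    (coresDqLin (Theta Δs ψ' j) hqN O)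
    (fun t x => coresDqLin_act (Theta Δs ψ' j) hqN Sy hrN t x)
    (fun i x => coresDqLin_dia (Theta Δs ψ' j) hqN _ _ (chi_dfun Δs ψ' dd j i) x)
    (coresDqLin (Theta Δs ψ' 0) hqN O) (fun x => (hβ x).symm)
    (f0β hqN Δs ψ' Sy hrN 𝔪) (fun _ => rfl)
  exact ⟨F, R, G, R', φα, φβ, hφα, hφβ⟩

end Towers

end GE8.RaiseP.P2.Pair

end Fermat.Agent.GE8.P3B
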